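/-
S43lib / Mod4x / ThetaFrob  (helper1, hub brick (2) THETA-FROB for helper7).

**`θ(T_ℓ) = tr ρ̄(Frob_ℓ)` at ALL good primes.**  For a Hecke–Galois datum
`H : HeckeGaloisRepDatum M S 𝒪 θ T` whose character `θ` takes the values `a_ℓ` off a finite set `S₀`,
`a_ℓ` the Frobenius traces of `ρ₀ : G_ℚ → GL₂(𝔽_p)`, the residual representation of `H.ρ` has the
characteristic polynomials of `ρ₀ ⊗ k` (helper4's `heckeDatum_residual_charpoly`: weak Chebotarev), at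
EVERY `σ`; at `σ = globFrobAt ℓ` (`ℓ ∤ M`, `ℓ ∉ S`) the left side is the reduction of
`X² − π(T_ℓ) X + ℓ`, whence `θ(T_ℓ) = tr (ρ₀ ⊗ k)(globFrobAt ℓ) = tFrob (ρ₀ ⊗ k) ℓ` — also for `ℓ ∈ S₀`.
-/
import Mathlib
import Fermat.Agent.S43lib.Mod4.HubDefs
import Fermat.Agent.S43lib.B3.HeckeTr

set_option autoImplicit false
set_option linter.unusedSectionVars false
set_option linter.unusedVariables false
set_option linter.style.haveILetI false

noncomputable section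

namespace Fermat.Agent.S43lib.Mod4.Hub

open IsLocalRing Polynomial CuspForm Fermat.Agent.S43lib.B3 Fermat.Agent.S43lib.Loc
  Fermat.Agent.S56lib.Main Fermat.Agent.S43lib.Mod4.HO Fermat.Agent.S56lib.TWSel ExtCitation

local notation "GQ" => (AlgebraicClosure ℚ ≃ₐ[ℚ] AlgebraicClosure ℚ)
local notation "Qb" => AlgebraicClosure ℚ

/-- the coefficient of `X` of `X² − t X + d` -/
theorem coeff_one_quad {R : Type*} [CommRing R] (t d : R) :
    (X ^ 2 - C t * X + C d : R[X]).coeff 1 = -t := by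
  simp only [coeff_add, coeff_sub, coeff_X_pow, coeff_C_mul, coeff_X_one, coeff_C]
  norm_num

/-- the trace of a residual representation from the characteristic polynomial -/
theorem trace_eq_neg_coeff_one {k : Type} [Field k] (ρ : ResidualGaloisRep k) (σ : GQ) :
    LinearMap.trace k ρ.V (ρ.ρ σ) = -(LinearMap.charpoly (ρ.ρ σ)).coeff 1 := by
  rw [Fermat.Agent.S34lib.charpoly_eq_of_finrank_two ρ.finrank_eq (ρ.ρ σ), coeff_one_quad, neg_neg]

/-! ## brick THETA-FROB (generic) -/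
theorem theta_eq_tFrob {p : ℕ} [hpf : Fact p.Prime] {M : ℕ} [NeZero M] {S : Finset ℕ}
    {𝒪 : Type} [CommRing 𝒪] [IsDomain 𝒪] [IsDiscreteValuationRing 𝒪]
    [IsAdicComplete (maximalIdeal 𝒪) 𝒪] [Finite (ResidueField 𝒪)] [CharZero 𝒪]
    [Algebra (ZMod p) (ResidueField 𝒪)]
    {θ : heckeAlgebra M 2 (↑S : Set ℕ) →+* ResidueField 𝒪}
    {T : Type} [CommRing T] [IsLocalRing T] [IsNoetherianRing T]
    [IsAdicComplete (maximalIdeal T) T] [Algebra 𝒪 T] [IsLocalHom (algebraMap 𝒪 T)]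
    [Module.Finite 𝒪 T] [Module.Free 𝒪 T]
    (H : HeckeGaloisRepDatum M (↑S : Set ℕ) 𝒪 θ T)
    (ρ₀ : ResidualGaloisRep (ZMod p)) (a : ℕ → ℤ) (S₀ : Finset ℕ)
    (h₀ : ∀ ℓ : ℕ, ℓ.Prime → ℓ ∉ S₀ → ∀ A : ValuationSubring Qb, A.LiesOverPrime ℓ →
      ∀ φ : Qb ≃ₐ[ℚ] Qb, A.IsFrobeniusAt φ ℓ →
        LinearMap.charpoly (ρ₀.ρ φ) =
          X ^ 2 - C ((a ℓ : ℤ) : ZMod p) * X + C ((ℓ : ℕ) : ZMod p))
    (hθ : ∀ (ℓ : ℕ) (hℓ : ℓ.Prime) (hℓN : ¬ ℓ ∣ M) (hℓS : ℓ ∉ (↑S : Set ℕ)), ℓ ∉ S₀ →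
      θ (heckeAlgebra.T hℓ hℓN hℓS) = ((a ℓ : ℤ) : ResidueField 𝒪))
    (ℓ : ℕ) (hℓ : ℓ.Prime) (hℓN : ¬ ℓ ∣ M) (hℓS : ℓ ∉ (↑S : Set ℕ)) :
    θ (heckeAlgebra.T hℓ hℓN hℓS) = tFrob (ρ₀.baseChange (ResidueField 𝒪)) ℓ := by
  classical
  set σ : GQ := globFrobAt ⟨ℓ, hℓ⟩ with hσdef
  have hA : (primeLocalPlace (⟨ℓ, hℓ⟩ : Nat.Primes)).LiesOverPrime ℓ :=
    primeLocalPlace_liesOverPrime ⟨ℓ, hℓ⟩
  have hσ : (primeLocalPlace (⟨ℓ, hℓ⟩ : Nat.Primes)).IsFrobeniusAt σ ℓ :=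
    globFrobAt_isFrobeniusAt ⟨ℓ, hℓ⟩
  -- the two characteristic polynomials
  have h1 := heckeDatum_residual_charpoly H ρ₀ a S₀ h₀ hθ σ
  have h2 : LinearMap.charpoly (H.ρ.residual.ρ σ) =
      X ^ 2 - C (ResidueField.map (algebraMap 𝒪 T) (θ (heckeAlgebra.T hℓ hℓN hℓS))) * X +
        C ((ℓ : ℕ) : ResidueField T) := by
    show LinearMap.charpoly ((H.ρ.ρ σ).baseChange (ResidueField T)) = _
    rw [LinearMap.charpoly_baseChange, H.charpoly_frob ℓ hℓ hℓN hℓS _ hA σ hσ]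
    simp only [Polynomial.map_add, Polynomial.map_sub, Polynomial.map_mul, Polynomial.map_pow,
      Polynomial.map_X, Polynomial.map_C]
    rw [show algebraMap T (ResidueField T) = residue T from rfl, H.residue_π, map_natCast]
  have h3 : LinearMap.charpoly (((ρ₀.baseChange (ResidueField 𝒪)).baseChangeAlong
      (ResidueField.map (algebraMap 𝒪 T))).ρ σ) =
      (LinearMap.charpoly ((ρ₀.baseChange (ResidueField 𝒪)).ρ σ)).map
        (ResidueField.map (algebraMap 𝒪 T)) :=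
    charpoly_res_baseChangeAlong _ _ σ
  rw [h2, h3] at h1
  have h4 := congrArg (fun q : (ResidueField T)[X] => q.coeff 1) h1
  simp only [coeff_one_quad, coeff_map] at h4
  -- compare
  rw [tFrob_of_prime _ hℓ, trace_eq_neg_coeff_one]
  apply (ResidueField.map (algebraMap 𝒪 T)).injective
  rw [map_neg, ← h4, neg_neg]

end Fermat.Agent.S43lib.Mod4.Hub
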