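/-
S43lib / Mod4x / HubHyp  (helper1, hub brick (2) HUBHYP for helper7).

The three arithmetic fields of `Mod4.Hub.HubHyp`:
* `hubHyp_hθ`  : `θ_{S'}(T_ℓ) = tr ρ̄(Frob_ℓ)` at ALL good primes (`theta_eq_tFrob` for `Sg.D.H S' hS'`);
* `hubHyp_ha`  : `tr ρ̄(Frob_ℓ) = a_ℓ` off `Sg.D.S₀`;
* `hubHyp_hne` : non-Eisenstein primes `ℓ₀ ≡ 1 (m)` outside any finite set
  (helper4's `freyRes_exists_nonEis`).
-/
import Mathlib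
import Fermat.Agent.S43lib.Mod4x.ThetaFrob
import Fermat.Agent.S43lib.B3.TrivCompFrey

set_option autoImplicit false
set_option linter.unusedSectionVars false
set_option linter.unusedVariables false
set_option linter.style.haveILetI false

noncomputable section

namespace Fermat.Agent.S43lib.Mod4.Hub

open IsLocalRing Polynomial CuspForm Fermat.Agent.S43lib.B3 Fermat.Agent.S43lib.Loc
  Fermat.Agent.S56lib.Main Fermat.Agent.S43lib.Mod4.HO Fermat.Agent.S56lib.TWSel ExtCitation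
  Fermat.Agent.S43lib.BigImg WeierstrassCurve WeierstrassCurve.Affine
  WeierstrassCurve.Affine.Point FreyPackage

local notation "GQ" => (AlgebraicClosure ℚ ≃ₐ[ℚ] AlgebraicClosure ℚ)
local notation "Qb" => AlgebraicClosure ℚ

variable {P : FreyPackage} {N : ℕ} (Sg : SideGal P N)

/-! ## brick HUBHYP -/
theorem hubHyp_hθ (S' : Finset ℕ) (hS' : Sg.good S') (ℓ : ℕ) (hℓ : ℓ.Prime)
    (hℓN : ¬ ℓ ∣ lvlTw P.p S') (hℓS : ℓ ∉ (↑S' : Set ℕ)) :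
    Sg.D.θ S' hS' (CuspForm.heckeAlgebra.T hℓ hℓN hℓS) = tS Sg ℓ :=
  theta_eq_tFrob (Sg.D.H S' hS') (freyRes P) Sg.D.a Sg.D.S₀ Sg.D.h₀ (Sg.D.hθ S' hS') ℓ hℓ hℓN hℓS

theorem hubHyp_ha (ℓ : ℕ) (hℓ : ℓ.Prime) (hℓS : ℓ ∉ Sg.D.S₀) :
    tS Sg ℓ = ((Sg.D.a ℓ : ℤ) : ResidueField Sg.𝒪) := by
  have hA : (primeLocalPlace (⟨ℓ, hℓ⟩ : Nat.Primes)).LiesOverPrime ℓ :=
    primeLocalPlace_liesOverPrime ⟨ℓ, hℓ⟩
  have hσ : (primeLocalPlace (⟨ℓ, hℓ⟩ : Nat.Primes)).IsFrobeniusAt (globFrobAt ⟨ℓ, hℓ⟩) ℓ :=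
    globFrobAt_isFrobeniusAt ⟨ℓ, hℓ⟩
  have h1 := Sg.D.h₀ ℓ hℓ hℓS _ hA _ hσ
  have h2 : LinearMap.charpoly (Sg.ρbar.ρ (globFrobAt ⟨ℓ, hℓ⟩)) =
      (LinearMap.charpoly ((freyRes P).ρ (globFrobAt ⟨ℓ, hℓ⟩))).map
        (algebraMap (ZMod P.p) (ResidueField Sg.𝒪)) :=
    charpoly_res_baseChange (k' := ResidueField Sg.𝒪) (freyRes P) (globFrobAt ⟨ℓ, hℓ⟩)
  show tFrob Sg.ρbar ℓ = _
  rw [tFrob_of_prime _ hℓ, trace_eq_neg_coeff_one, h2, h1, coeff_map, coeff_one_quad, map_neg,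
    neg_neg, map_intCast]

theorem hubHyp_hne (hirr : GaloisRepIsIrreducible (K := Qb) ℚ P.freyCurve P.p)
    (m : ℕ) (hm : 0 < m) (S₀ : Finset ℕ) :
    ∃ ℓ₀ : ℕ, ℓ₀.Prime ∧ ℓ₀ ∉ S₀ ∧ m ∣ ℓ₀ - 1 ∧
      tS Sg ℓ₀ ≠ ((ℓ₀ + 1 : ℕ) : ResidueField Sg.𝒪) := by
  obtain ⟨ℓ, A, φ, hℓ, hℓS, hdvd, hA, hφ, hev⟩ :=
    freyRes_exists_nonEis P hirr hm (S₀ ∪ Sg.D.S₀)
  rw [Finset.mem_union, not_or] at hℓS
  refine ⟨ℓ, hℓ, hℓS.1, hdvd, fun heq => hev ?_⟩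
  rw [Sg.D.h₀ ℓ hℓ hℓS.2 A hA φ hφ]
  simp only [eval_add, eval_sub, eval_mul, eval_pow, eval_X, eval_C, one_pow, mul_one]
  rw [hubHyp_ha Sg ℓ hℓ hℓS.2] at heq
  have h2 : algebraMap (ZMod P.p) (ResidueField Sg.𝒪) ((Sg.D.a ℓ : ℤ) : ZMod P.p) =
      algebraMap (ZMod P.p) (ResidueField Sg.𝒪) ((ℓ + 1 : ℕ) : ZMod P.p) := by
    rw [map_intCast, map_natCast]
    exact heq
  have h3 := (algebraMap (ZMod P.p) (ResidueField Sg.𝒪)).injective h2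
  rw [h3]
  push_cast
  ring

end Fermat.Agent.S43lib.Mod4.Hub
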