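/-
S43lib / Mod4x / NonVan  (helper1, hub brick (2) NONVAN-INST for helper7).

**`M_∅ ≠ 0`**: the base Hecke module `M0 Sg` (the localisation of `H¹(Γ₀(M₀), Reg G₀ 𝒪)` at the point
`T_ℓ ↦ tr ρ̄(Frob_ℓ)`, diamonds `↦ 1`) does not vanish.  This is helper5's
`B2/Bridge/NonVan.lean : nontrivial_F_reg` at the level `M₀ N = 2 ∏_{v ∈ T} v` with `S = {p, 2} ∪ T`:
* `θ₀ : 𝕋(M₀)^S → k` from helper8's THETA (`N ∣ M₀ N`, `N` squarefree);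
* a Galois datum for `θ₀` from `B2.exists_heckeGaloisRepDatum`, so that `theta_eq_tFrob` gives
  `θ₀(T_ℓ) = tr ρ̄(Frob_ℓ)` at ALL indices;
* non-Eisenstein from `hubHyp_hne`.
-/
import Mathlib
import Fermat.Agent.S43lib.Mod4x.HubHyp
import Fermat.Agent.S43lib.B2.Bridge.NonVan
import Fermat.Agent.S43lib.B3.HeckeFamFrey

set_option autoImplicit false
set_option linter.unusedSectionVars false
set_option linter.unusedVariables false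
set_option linter.style.haveILetI false

noncomputable section

namespace Fermat.Agent.S43lib.Mod4.Hub

open IsLocalRing Polynomial CuspForm Fermat.Agent.S43lib.B3 Fermat.Agent.S43lib.Loc
  Fermat.Agent.S56lib.Main Fermat.Agent.S43lib.Mod4.HO Fermat.Agent.S56lib.TWSel ExtCitation
  Fermat.Agent.S43lib.BigImg WeierstrassCurve WeierstrassCurve.Affine
  WeierstrassCurve.Affine.Point FreyPackage

local notation "GQ" => (AlgebraicClosure ℚ ≃ₐ[ℚ] AlgebraicClosure ℚ)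
local notation "Qb" => AlgebraicClosure ℚ

/-- a squarefree `N` divides `M₀ N = 2 ∏_{v ∈ T} v` -/
theorem dvd_M₀_of_squarefree {N : ℕ} (hN : Squarefree N) : N ∣ M₀ N := by
  have hN0 : N ≠ 0 := hN.ne_zero
  conv_lhs => rw [← Nat.prod_primeFactors_of_squarefree hN]
  refine Finset.prod_primes_dvd _ (fun ℓ hℓ => (Nat.prime_of_mem_primeFactors hℓ).prime) ?_
  intro ℓ hℓ
  have hℓp : ℓ.Prime := Nat.prime_of_mem_primeFactors hℓ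
  have hℓN : ℓ ∣ N := Nat.dvd_of_mem_primeFactors hℓ
  by_cases h2 : ℓ = 2
  · rw [h2]
    exact Dvd.intro _ rfl
  · have hT : ℓ ∈ oddPrimes N := mem_oddPrimes.2 ⟨hℓp, hℓN, hN0, h2⟩
    exact Dvd.dvd.mul_left (Finset.dvd_prod_of_mem (fun v => v) hT) 2

variable {P : FreyPackage} {N : ℕ} (Sg : SideGal P N)

/-- the primes of `M₀ N` lie in `S = {p, 2} ∪ T` -/
theorem mem_S_of_prime_dvd_M₀ {q : ℕ} (hq : q.Prime) (hd : q ∣ M₀ N) : q ∈ Sg.S := by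
  rcases prime_dvd_M₀ hq hd with h | h
  · rw [h]
    exact Finset.mem_union_left _ (by simp)
  · exact Finset.mem_union_right _ h

/-- a prime `ℓ ∤ M₀ N`, `ℓ ≠ p` is not in `S` -/
theorem not_mem_S_of_not_dvd {ℓ : ℕ} (hℓ : ℓ.Prime) (hℓM : ¬ ℓ ∣ M₀ N) (hℓp : ℓ ≠ P.p) :
    ℓ ∉ (↑Sg.S : Set ℕ) := by
  intro h
  have h' : ℓ ∈ Sg.S := Finset.mem_coe.1 h
  rw [Finset.mem_union, Finset.mem_insert, Finset.mem_singleton] at h'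
  rcases h' with (h1 | h1) | h1
  · exact hℓp h1
  · exact hℓM (h1 ▸ (Dvd.intro _ rfl : 2 ∣ M₀ N))
  · exact hℓM (Dvd.dvd.mul_left (Finset.dvd_prod_of_mem (fun v => v) h1) 2)

/-! ## brick NONVAN-INST -/
theorem nontrivial_M0 (hcond : P.IsConductorLevel N) (hpN : ¬ P.p ∣ N)
    (hirr : GaloisRepIsIrreducible (K := Qb) ℚ P.freyCurve P.p)
    (hmod : P.ModularRepOfLevel N)
    (hT : ∀ r : ℕ, r.Prime → r ≠ 2 → r ∣ N →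
      P.GaloisRepUnramifiedAt r ∧ r ≡ 1 [MOD P.p] ∧ DecompScalarAt P r) :
    Nontrivial (M0 Sg) := by
  classical
  have hp2 : P.p ≠ 2 := Sg.D.hp2
  have hp𝒪 : (P.p : Sg.𝒪) ∈ maximalIdeal Sg.𝒪 := Sg.hp𝒪
  have hNM : N ∣ M₀ N := dvd_M₀_of_squarefree hcond.squarefree
  have hpS : P.p ∈ Sg.S := Sg.hSmin Sg.hpSmin
  have hMS : ∀ q : ℕ, q.Prime → q ∣ M₀ N → q ∈ Sg.S := fun q hq hd =>
    mem_S_of_prime_dvd_M₀ Sg hq hd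
  -- the character `θ₀`
  obtain ⟨W, hW, θ, hθW⟩ := Fermat.Agent.S43lib.Theta.exists_theta_of_modularRepOfLevel P hNM
    Sg.S hpS hMS hmod (ResidueField Sg.𝒪)
  have hΔ : W.Δ ≠ 0 := Fermat.Agent.S43lib.Theta.Δ_ne_zero_of_isIntegralModelOf P hW
  have h₀ : ∀ ℓ : ℕ, ℓ.Prime → ℓ ∉ ({P.p} ∪ W.Δ.natAbs.primeFactors : Finset ℕ) →
      ∀ A : ValuationSubring Qb, A.LiesOverPrime ℓ → ∀ φ : Qb ≃ₐ[ℚ] Qb, A.IsFrobeniusAt φ ℓ →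
        LinearMap.charpoly ((freyRes P).ρ φ) =
          X ^ 2 - C ((((fun ℓ => W.apOfModel ℓ) ℓ : ℤ) : ℤ) : ZMod P.p) * X +
            C ((ℓ : ℕ) : ZMod P.p) :=
    fun ℓ hℓ hℓS A hA φ hφ => freyRes_charpoly_frob P W hW ℓ hℓ hℓS A hA φ hφ
  have hθ : ∀ (ℓ : ℕ) (hℓ : ℓ.Prime) (hℓN : ¬ ℓ ∣ M₀ N) (hℓS : ℓ ∉ (↑Sg.S : Set ℕ)),
      ℓ ∉ ({P.p} ∪ W.Δ.natAbs.primeFactors : Finset ℕ) →
      θ (heckeAlgebra.T hℓ hℓN hℓS) =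
        ((((fun ℓ => W.apOfModel ℓ) ℓ : ℤ) : ℤ) : ResidueField Sg.𝒪) := by
    intro ℓ hℓ hℓN hℓS hℓS₀
    refine hθW ℓ hℓ hℓN hℓS ?_
    intro hdv
    apply hℓS₀
    rw [Finset.mem_union, Nat.mem_primeFactors]
    exact Or.inr ⟨hℓ, Int.natCast_dvd.mp hdv, Int.natAbs_ne_zero.mpr hΔ⟩
  obtain ⟨H⟩ := Fermat.Agent.S43lib.B2.exists_heckeGaloisRepDatum hp2 hp𝒪 hpS hMS θ (freyRes P)
    (freyRes_isIrreducible P hirr) (fun ℓ => W.apOfModel ℓ)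
    ({P.p} ∪ W.Δ.natAbs.primeFactors) h₀ hθ
  have hθt : ∀ (ℓ : ℕ) (hℓ : ℓ.Prime) (hℓN : ¬ ℓ ∣ M₀ N) (hℓS : ℓ ∉ (↑Sg.S : Set ℕ)),
      θ (heckeAlgebra.T hℓ hℓN hℓS) = tS Sg ℓ := fun ℓ hℓ hℓN hℓS =>
    theta_eq_tFrob H (freyRes P) (fun ℓ => W.apOfModel ℓ)
      ({P.p} ∪ W.Δ.natAbs.primeFactors) h₀ hθ ℓ hℓ hℓN hℓS
  -- the evaluation hypothesis of `nontrivial_F_reg`
  have hev : ∀ i : Idx P.p (M₀ N),
      (∃ ℓ : Fermat.Agent.S43lib.B2.Bridge.GoodPrime (M₀ N) (↑Sg.S : Set ℕ),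
        idx₀ P.p (M₀ N) i = Fermat.Agent.S43lib.B2.Bridge.goodIdx₀ ℓ ∧
        evOf P.p (M₀ N) (𝒪 := Sg.𝒪) (tS Sg) (MvPolynomial.X i) =
          θ (CuspForm.heckeAlgebra.T ℓ.2.1 ℓ.2.2.1 ℓ.2.2.2)) ∨
      (∃ u : (ZMod (M₀ N))ˣ, idx₀ P.p (M₀ N) i = Sum.inr u ∧
        evOf P.p (M₀ N) (𝒪 := Sg.𝒪) (tS Sg) (MvPolynomial.X i) = 1) := by
    rintro (ℓ | n)
    · left
      refine ⟨⟨ℓ.1, ℓ.2.1, ℓ.2.2.1, not_mem_S_of_not_dvd Sg ℓ.2.1 ℓ.2.2.1 ℓ.2.2.2⟩, rfl, ?_⟩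
      rw [evOf_X_inl, hθt]
    · right
      exact ⟨_, rfl, evOf_X_inr P.p (M₀ N) (tS Sg) n⟩
  -- non-Eisenstein
  obtain ⟨ℓ₀, hℓ₀, hℓ₀S, -, hne⟩ := hubHyp_hne Sg hirr 1 one_pos Sg.S
  have hℓ₀M : ¬ ℓ₀ ∣ M₀ N := fun hd => hℓ₀S (mem_S_of_prime_dvd_M₀ Sg hℓ₀ hd)
  have hℓ₀p : ℓ₀ ≠ P.p := fun h => hℓ₀S (h ▸ hpS)
  have hne' : (Fermat.Agent.S43lib.B1.lvlSys (χ₀ P N) (idx₀ P.p (M₀ N))
      (Fermat.Agent.S43lib.B1.commStmt (M₀ N))).NonEis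
      (RingHom.ker (evOf P.p (M₀ N) (𝒪 := Sg.𝒪) (tS Sg))) := by
    refine ⟨Sum.inl ⟨ℓ₀, hℓ₀, hℓ₀M, hℓ₀p⟩, ?_⟩
    rw [RingHom.mem_ker, map_sub, evOf_X_inl, evOf_C, map_natCast]
    have hcard : Fintype.card (Fermat.Agent.S43lib.B1.lvlIota (M₀ N)
        (Sum.inl (Sum.inl ⟨ℓ₀, hℓ₀, hℓ₀M⟩))) = ℓ₀ + 1 := by
      haveI : NeZero ℓ₀ := ⟨hℓ₀.ne_zero⟩
      rw [Fintype.card_eq_nat_card]
      show Nat.card (OnePoint (ZMod ℓ₀)) = ℓ₀ + 1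
      rw [show OnePoint (ZMod ℓ₀) = Option (ZMod ℓ₀) from rfl, Finite.card_option,
        Nat.card_zmod]
    have hcard' : Fintype.card ((Fermat.Agent.S43lib.B1.lvlSys (χ₀ P N) (idx₀ P.p (M₀ N))
        (Fermat.Agent.S43lib.B1.commStmt (M₀ N))).ι (Sum.inl ⟨ℓ₀, hℓ₀, hℓ₀M, hℓ₀p⟩)) =
        ℓ₀ + 1 := hcard
    rw [hcard']
    exact sub_ne_zero.mpr hne
  exact Fermat.Agent.S43lib.B2.Bridge.nontrivial_F_reg (χ₀ P N) (idx₀ P.p (M₀ N))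
    (Fermat.Agent.S43lib.B1.commStmt (M₀ N)) Sg.𝒪 θ (evOf P.p (M₀ N) (𝒪 := Sg.𝒪) (tS Sg)) hev
    (RingHom.ker (evOf P.p (M₀ N) (𝒪 := Sg.𝒪) (tS Sg))) (fun s => RingHom.mem_ker) hne'

end Fermat.Agent.S43lib.Mod4.Hub
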