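/-
S43lib / Mod4x / HubHypMk  (helper1, for helper7's hub).

**`HubHyp Sg` holds** under the hypotheses of `SideBlock`/`ModLevelBlock`: the six fields assembled from
`hubHyp_hθ`, `hubHyp_ha`, `hubHyp_hne` (`Mod4x/HubHyp.lean`) and `nontrivial_M0` (`Mod4x/NonVan.lean`).
-/
import Mathlib
import Fermat.Agent.S43lib.Mod4x.NonVan

set_option autoImplicit false
set_option linter.unusedSectionVars false
set_option linter.unusedVariables false
set_option linter.style.haveILetI false

noncomputable section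

namespace Fermat.Agent.S43lib.Mod4.Hub

open IsLocalRing Polynomial CuspForm Fermat.Agent.S43lib.B3 Fermat.Agent.S43lib.Loc
  Fermat.Agent.S56lib.Main Fermat.Agent.S43lib.Mod4.HO Fermat.Agent.S56lib.TWSel ExtCitation
  Fermat.Agent.S43lib.BigImg WeierstrassCurve WeierstrassCurve.Affine
  WeierstrassCurve.Affine.Point FreyPackage

local notation "Qb" => AlgebraicClosure ℚ

variable {P : FreyPackage} {N : ℕ} (Sg : SideGal P N)

/-- **the standing hypotheses of the Hecke side hold** -/
theorem hubHyp_mk (hcond : P.IsConductorLevel N) (hpN : ¬ P.p ∣ N)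
    (hirr : GaloisRepIsIrreducible (K := Qb) ℚ P.freyCurve P.p)
    (hmod : P.ModularRepOfLevel N)
    (hT : ∀ r : ℕ, r.Prime → r ≠ 2 → r ∣ N →
      P.GaloisRepUnramifiedAt r ∧ r ≡ 1 [MOD P.p] ∧ DecompScalarAt P r) :
    HubHyp Sg where
  hpN := hpN
  hT1 := fun v hv => by
    obtain ⟨h1, h2, -, h3⟩ := mem_oddPrimes.1 hv
    exact (hT v h1 h3 h2).2.1
  hθ := hubHyp_hθ Sg
  ha := hubHyp_ha Sg
  hne := hubHyp_hne Sg hirr
  nontriv := nontrivial_M0 Sg hcond hpN hirr hmod hT

end Fermat.Agent.S43lib.Mod4.Hub
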