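/-
S43lib / Mod4x / Readout  (helper6)  — Project H, hub brick (3) READOUT.

`readout_of` (statement = `Mod4/SPEC_bricks.txt`): for the concrete hub objects of `Mod4/HubDefs`
(`Sg : SideGal P N`, base Hecke algebra `T0 Sg`, trace ring `(Sg.F Sg.S _).R`), a prime `𝔭` of `T0 Sg` over the
augmentation ideal, not containing `p`, at which the bridge `β₀` is trace-unramified at `q`, gives the
modularity of `ρ̄` at the level `N / q`.  Proof: `End/Seam.lean : modularRepOfLevel_of_prime_T0`.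
-/
import Fermat.Agent.S43lib.B0.End.Seam
import Fermat.Agent.S43lib.Mod4.HubDefs
import Fermat.Agent.S43lib.B3.TwoDvd
import Fermat.Agent.S43lib.B3.HeckeTr
import Fermat.Agent.S43lib.Mod4.Side

set_option autoImplicit false
set_option linter.unusedSectionVars false
set_option linter.style.haveILetI false

noncomputable section

namespace Fermat.Agent.S43lib.Mod4.Hub

open IsLocalRing Polynomial CuspForm Fermat.Agent.S43lib.B3 Fermat.Agent.S43lib.Loc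
  Fermat.Agent.S56lib.Main Fermat.Agent.S43lib.Mod4.HO
  Fermat.Agent.S43lib.BigImg WeierstrassCurve WeierstrassCurve.Affine WeierstrassCurve.Affine.Point
  FreyPackage

local notation "GQ" => (AlgebraicClosure ℚ ≃ₐ[ℚ] AlgebraicClosure ℚ)
local notation "Qb" => AlgebraicClosure ℚ

variable {P : FreyPackage} {N : ℕ} (Sg : SideGal P N)

/-- a squarefree even level is `M₀` -/
theorem readout_eq_M₀_of_squarefree (hN : Squarefree N) (h2 : 2 ∣ N) : N = M₀ N := by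
  classical
  have hN0 : N ≠ 0 := hN.ne_zero
  have h1 : N = ∏ ℓ ∈ N.primeFactors, ℓ := (Nat.prod_primeFactors_of_squarefree hN).symm
  have h2m : 2 ∈ N.primeFactors := Nat.mem_primeFactors.2 ⟨Nat.prime_two, h2, hN0⟩
  have h3 : N.primeFactors = insert 2 (oddPrimes N) := by
    ext ℓ
    unfold oddPrimes
    rw [Finset.mem_insert, Finset.mem_filter]
    constructor
    · intro h
      by_cases hℓ : ℓ = 2
      · exact Or.inl hℓ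
      · exact Or.inr ⟨h, hℓ⟩
    · rintro (h | h)
      · rw [h]; exact h2m
      · exact h.1
  have h4 : (2 : ℕ) ∉ oddPrimes N := fun h => (mem_oddPrimes.1 h).2.2.2 rfl
  conv_lhs => rw [h1, h3, Finset.prod_insert h4]
  rfl

/-- square roots in a finite group of odd order -/
theorem readout_exists_sq_eq_of_odd_card {G : Type*} [Group G] [Fintype G] (hodd : Odd (Fintype.card G))
    (y : G) : ∃ g : G, g * g = y := by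
  obtain ⟨m, hm⟩ := hodd
  refine ⟨y ^ (m + 1), ?_⟩
  have h1 : y ^ (2 * m + 1) = 1 := by rw [← hm]; exact pow_card_eq_one
  calc y ^ (m + 1) * y ^ (m + 1) = y ^ (2 * m + 1) * y := by
        rw [← pow_add, ← pow_succ]
        congr 1
        ring
    _ = y := by rw [h1, one_mul]

/-- the determinant from a quadratic characteristic polynomial -/
theorem readout_det_eq_of_charpoly {R : Type*} [CommRing R] [Nontrivial R] {V : Type*} [AddCommGroup V]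
    [Module R V] [Module.Free R V] [Module.Finite R V] (hrank : Module.finrank R V = 2)
    (f : Module.End R V) {t d : R} (hf : LinearMap.charpoly f = X ^ 2 - C t * X + C d) :
    LinearMap.det f = d := by
  have h1 := Fermat.Agent.S34lib.charpoly_eq_of_finrank_two hrank f
  rw [hf] at h1
  have h2 := congrArg (fun q : R[X] => q.coeff 0) h1
  simp only [coeff_add, coeff_sub, coeff_X_pow, coeff_C_mul, coeff_X_zero, coeff_C] at h2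
  norm_num at h2
  exact h2.symm

/-! ## brick READOUT -/
theorem readout_of_aux {q : ℕ} (hH : HubHyp Sg) (hcond : P.IsConductorLevel N)
    (hπ : (Sg.D.H Sg.S Sg.hgoodS).π =
      heckeLocal.π (lvlTw P.p Sg.S) (↑Sg.S : Set ℕ) Sg.𝒪 (Sg.D.θ Sg.S Sg.hgoodS))
    (hq : q.Prime) (hq2 : q ≠ 2) (hqN : q ∣ N)
    (hirr : GaloisRepIsIrreducible (K := Qb) ℚ P.freyCurve P.p)
    (hmod : P.ModularRepOfLevel N)
    (hT : ∀ r : ℕ, r.Prime → r ≠ 2 → r ∣ N →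
      P.GaloisRepUnramifiedAt r ∧ r ≡ 1 [MOD P.p] ∧ DecompScalarAt P r)
    (h2 : 2 ∣ N → ¬ P.GaloisRepUnramifiedAt 2)
    (hgood : (H0 Sg).Good P.p)
    (β₀ : (Sg.F Sg.S Sg.hgoodS).R →ₐ[Sg.𝒪] T0 Sg)
    (hβ₀ : ∀ (ℓ : ℕ) (hℓ : ℓ.Prime) (hℓN : ¬ ℓ ∣ lvlTw P.p Sg.S)
        (hℓS : ℓ ∉ (↑Sg.S : Set ℕ)) (hi : ℓ.Prime ∧ ¬ ℓ ∣ M₀ N ∧ ℓ ≠ P.p)
        (hℓM : ℓ.Coprime (M₀ N)) (g : G₀ P N),
        g * g * χ₀ P N (ZMod.unitOfCoprime ℓ hℓM) = 1 →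
        β₀ (heckeLocal.π _ _ _ _ (heckeAlgebra.T hℓ hℓN hℓS)) =
          (H0 Sg).tG Set.univ g * (H0 Sg).tX Set.univ (Sum.inl ⟨ℓ, hi⟩) (Set.mem_univ _))
    (𝔭 : Ideal (T0 Sg)) (h𝔭 : 𝔭.IsPrime)
    (hG : ∀ g : G₀ P N, (H0 Sg).tG Set.univ g - 1 ∈ 𝔭) (hp𝔭 : ((P.p : ℕ) : T0 Sg) ∉ 𝔭)
    (htr : ∀ h : GQ, β₀ ((Sg.F Sg.S Sg.hgoodS).ρ.trace (globGenAt ⟨q, hq⟩ P.p * h)) -
      β₀ ((Sg.F Sg.S Sg.hgoodS).ρ.trace h) ∈ 𝔭) :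
    P.ModularRepOfLevel (N / q) := by
  classical
  have hpN : ¬ P.p ∣ N := hH.hpN
  have hN0 : N ≠ 0 := hcond.pos.ne'
  haveI : NeZero N := ⟨hN0⟩
  have hp : P.p.Prime := P.pp
  have h2N : 2 ∣ N := two_dvd_of_modularRepOfLevel P hN0 hpN hirr hmod
  have hNM : N = M₀ N := readout_eq_M₀_of_squarefree hcond.squarefree h2N
  -- `q ≥ 5`
  have h5 : 5 ≤ q := by
    have h1 : q ≡ 1 [MOD P.p] := (hT q hq hq2 hqN).2.1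
    have h3 := P.hp5
    have h4 : P.p ∣ q - 1 := (Nat.modEq_iff_dvd' hq.one_lt.le).1 h1.symm
    have h6 : P.p ≤ q - 1 := Nat.le_of_dvd (by have := hq.two_le; omega) h4
    omega
  obtain ⟨f, W, 𝔪, hf, hW, h𝔪, hp𝔪, hcong⟩ := hmod
  -- the set `S`
  have hS : ∀ ℓ ∈ Sg.S, ℓ.Prime ∧ ℓ ∣ N * P.p := by
    intro ℓ hℓ
    rw [Finset.mem_union, Finset.mem_insert, Finset.mem_singleton] at hℓ
    rcases hℓ with (h | h) | h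
    · rw [h]; exact ⟨hp, Dvd.intro_left N rfl⟩
    · rw [h]; exact ⟨Nat.prime_two, h2N.mul_right _⟩
    · obtain ⟨h1, h3, -, -⟩ := mem_oddPrimes.1 h
      exact ⟨h1, h3.mul_right _⟩
  have hpS : P.p ∈ Sg.S := Finset.mem_union_left _ (Finset.mem_insert_self _ _)
  have hNS : ∀ ℓ : ℕ, ℓ.Prime → ℓ ∣ N → ℓ ∈ Sg.S := by
    intro ℓ hℓ hd
    by_cases h : ℓ = 2
    · rw [h]
      exact Finset.mem_union_left _ (Finset.mem_insert_of_mem (Finset.mem_singleton_self _))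
    · exact Finset.mem_union_right _ (mem_oddPrimes.2 ⟨hℓ, hd, hN0, h⟩)
  have hlvl : ∀ ℓ : ℕ, ℓ.Prime → ℓ ∉ Sg.S → ¬ ℓ ∣ lvlTw P.p Sg.S := fun ℓ hℓ hℓS hd =>
    hℓS (Sg.D.primes_mem Sg.S Sg.hgoodS ℓ hℓ hd)
  have hcoe : ∀ ℓ : ℕ, ℓ ∉ Sg.S → ℓ ∉ (↑Sg.S : Set ℕ) := fun ℓ h h' => h (Finset.mem_coe.1 h')
  -- the Galois inputs
  have hirrR : (Sg.F Sg.S Sg.hgoodS).ρ.residual.IsAbsolutelyIrreducible :=
    (Sg.D.H Sg.S Sg.hgoodS).residual_absIrr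
  have hqp : q ≠ P.p := fun h => hpN (h ▸ hqN)
  have hqur : Sg.ρbar.IsUnramifiedAt q := by
    by_contra hc
    have h1 : q ∈ Sg.Smin := (Sg.hmin q hq hqp).2 hc
    rw [Finset.mem_insert, Finset.mem_singleton] at h1
    rcases h1 with h1 | h1
    · exact hqp h1
    · exact hq2 h1
  have hurR : (Sg.F Sg.S Sg.hgoodS).ρ.residual.IsUnramifiedAt q :=
    Fermat.Agent.S43lib.Mod4.isUnramifiedAt_of_isEquiv_baseChangeAlong _ _ _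
      (Sg.F Sg.S Sg.hgoodS).residual_isEquiv hqur
  have hdetR : ∀ ℓ : ℕ, ℓ.Prime → ℓ ∉ Sg.S → ∀ A : ValuationSubring Qb, A.LiesOverPrime ℓ →
      ∀ σ : GQ, A.IsFrobeniusAt σ ℓ →
        LinearMap.det ((Sg.F Sg.S Sg.hgoodS).ρ.ρ σ) = (ℓ : (Sg.F Sg.S Sg.hgoodS).R) := by
    intro ℓ hℓ hℓS A hA σ hσ
    exact readout_det_eq_of_charpoly (Sg.D.H Sg.S Sg.hgoodS).ρ.finrank_eq _
      ((Sg.D.H Sg.S Sg.hgoodS).charpoly_frob ℓ hℓ (hlvl ℓ hℓ hℓS) (hcoe ℓ hℓS) A hA σ hσ)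
  -- the Frobenius traces of `ρ̄`
  have htS : ∀ ℓ : ℕ, ℓ.Prime → ℓ ≠ P.p → W.IsGoodPrimeFor ℓ →
      tS Sg ℓ = ((W.apOfModel ℓ : ℤ) : ResidueField Sg.𝒪) := by
    intro ℓ hℓ hℓp hgoodℓ
    have hℓS₀ : ℓ ∉ ({P.p} ∪ W.Δ.natAbs.primeFactors : Finset ℕ) := by
      rw [Finset.mem_union, Finset.mem_singleton]
      rintro (h | h)
      · exact hℓp h
      · exact hgoodℓ (Int.natCast_dvd.2 (Nat.dvd_of_mem_primeFactors h))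
    have h1 := freyRes_charpoly_frob P W hW ℓ hℓ hℓS₀ (ExtCitation.primeLocalPlace ⟨ℓ, hℓ⟩)
      (Fermat.Agent.S56lib.TWSel.primeLocalPlace_liesOverPrime ⟨ℓ, hℓ⟩) (globFrobAt ⟨ℓ, hℓ⟩)
      (globFrobAt_isFrobeniusAt ⟨ℓ, hℓ⟩)
    have h3 : LinearMap.charpoly (Sg.ρbar.ρ (globFrobAt ⟨ℓ, hℓ⟩)) =
        X ^ 2 - C ((W.apOfModel ℓ : ℤ) : ResidueField Sg.𝒪) * X +
          C ((ℓ : ℕ) : ResidueField Sg.𝒪) := by
      have h4 := charpoly_res_baseChange (k' := ResidueField Sg.𝒪) (freyRes P) (globFrobAt ⟨ℓ, hℓ⟩)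
      rw [h1, Fermat.Agent.S58lib.Cmp.map_quad_int] at h4
      exact h4
    rw [show tS Sg ℓ = tFrob Sg.ρbar ℓ from rfl, tFrob_of_prime Sg.ρbar hℓ]
    exact trace_eq_of_charpoly Sg.ρbar.finrank_eq _ h3
  have hcongR : ∀ ℓ : ℕ, ℓ.Prime → ℓ ∉ Sg.S → W.IsGoodPrimeFor ℓ → ∀ A : ValuationSubring Qb,
      A.LiesOverPrime ℓ → ∀ σ : GQ, A.IsFrobeniusAt σ ℓ →
        (Sg.F Sg.S Sg.hgoodS).ρ.trace σ - ((W.apOfModel ℓ : ℤ) : (Sg.F Sg.S Sg.hgoodS).R) ∈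
          maximalIdeal (Sg.F Sg.S Sg.hgoodS).R := by
    intro ℓ hℓ hℓS hgoodℓ A hA σ hσ
    have hℓp : ℓ ≠ P.p := fun h => hℓS (h ▸ hpS)
    have h1 : (Sg.F Sg.S Sg.hgoodS).ρ.trace σ =
        (Sg.D.H Sg.S Sg.hgoodS).π (heckeAlgebra.T hℓ (hlvl ℓ hℓ hℓS) (hcoe ℓ hℓS)) :=
      heckeDatum_trace_frob (Sg.D.H Sg.S Sg.hgoodS) ℓ hℓ (hlvl ℓ hℓ hℓS) (hcoe ℓ hℓS) A hA σ hσ
    have key : (Sg.D.H Sg.S Sg.hgoodS).π (heckeAlgebra.T hℓ (hlvl ℓ hℓ hℓS) (hcoe ℓ hℓS)) -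
        ((W.apOfModel ℓ : ℤ) : heckeLocal (lvlTw P.p Sg.S) (↑Sg.S : Set ℕ) Sg.𝒪
          (Sg.D.θ Sg.S Sg.hgoodS)) ∈
        maximalIdeal (heckeLocal (lvlTw P.p Sg.S) (↑Sg.S : Set ℕ) Sg.𝒪
          (Sg.D.θ Sg.S Sg.hgoodS)) := by
      rw [← residue_eq_zero_iff, map_sub, (Sg.D.H Sg.S Sg.hgoodS).residue_π,
        hH.hθ Sg.S Sg.hgoodS ℓ hℓ (hlvl ℓ hℓ hℓS) (hcoe ℓ hℓS), htS ℓ hℓ hℓp hgoodℓ, map_intCast,
        map_intCast, sub_self]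
    rw [h1]
    exact key
  -- the bridge at the Frobenius elements
  have hodd : Odd (Fintype.card (G₀ P N)) := by
    obtain ⟨k, hk⟩ := IsPGroup.iff_card.1 hgood.hG
    rw [Nat.card_eq_fintype_card] at hk
    rw [hk]
    exact Odd.pow (hp.odd_of_ne_two (Sg.hp2))
  have hβ₀' : ∀ (ℓ : ℕ) (hℓ : ℓ.Prime) (hℓM : ¬ ℓ ∣ M₀ N) (hℓp : ℓ ≠ P.p), ℓ ∉ Sg.S →
      ∀ A : ValuationSubring Qb, A.LiesOverPrime ℓ → ∀ σ : GQ, A.IsFrobeniusAt σ ℓ →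
        (β₀ : (Sg.F Sg.S Sg.hgoodS).R →+* T0 Sg) ((Sg.F Sg.S Sg.hgoodS).ρ.trace σ) -
          (H0 Sg).tX Set.univ (Sum.inl ⟨ℓ, hℓ, hℓM, hℓp⟩) (Set.mem_univ _) ∈ 𝔭 := by
    intro ℓ hℓ hℓM hℓp hℓS A hA σ hσ
    have hcopℓ : ℓ.Coprime (M₀ N) := (Nat.Prime.coprime_iff_not_dvd hℓ).2 hℓM
    obtain ⟨g, hg⟩ := readout_exists_sq_eq_of_odd_card hodd
      ((χ₀ P N (ZMod.unitOfCoprime ℓ hcopℓ))⁻¹)
    have hg' : g * g * χ₀ P N (ZMod.unitOfCoprime ℓ hcopℓ) = 1 := by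
      rw [hg, inv_mul_cancel]
    have h1 : (Sg.F Sg.S Sg.hgoodS).ρ.trace σ =
        (Sg.D.H Sg.S Sg.hgoodS).π (heckeAlgebra.T hℓ (hlvl ℓ hℓ hℓS) (hcoe ℓ hℓS)) :=
      heckeDatum_trace_frob (Sg.D.H Sg.S Sg.hgoodS) ℓ hℓ (hlvl ℓ hℓ hℓS) (hcoe ℓ hℓS) A hA σ hσ
    have h3 := hβ₀ ℓ hℓ (hlvl ℓ hℓ hℓS) (hcoe ℓ hℓS) ⟨hℓ, hℓM, hℓp⟩ hcopℓ g hg'
    rw [h1, hπ]
    have h4 : (β₀ : (Sg.F Sg.S Sg.hgoodS).R →+* T0 Sg)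
        (heckeLocal.π (lvlTw P.p Sg.S) (↑Sg.S : Set ℕ) Sg.𝒪 (Sg.D.θ Sg.S Sg.hgoodS)
          (heckeAlgebra.T hℓ (hlvl ℓ hℓ hℓS) (hcoe ℓ hℓS))) =
        (H0 Sg).tG Set.univ g * (H0 Sg).tX Set.univ (Sum.inl ⟨ℓ, hℓ, hℓM, hℓp⟩)
          (Set.mem_univ _) := h3
    rw [h4]
    have h5 : (H0 Sg).tG Set.univ g * (H0 Sg).tX Set.univ (Sum.inl ⟨ℓ, hℓ, hℓM, hℓp⟩)
        (Set.mem_univ _) - (H0 Sg).tX Set.univ (Sum.inl ⟨ℓ, hℓ, hℓM, hℓp⟩) (Set.mem_univ _) =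
        ((H0 Sg).tG Set.univ g - 1) * (H0 Sg).tX Set.univ (Sum.inl ⟨ℓ, hℓ, hℓM, hℓp⟩)
          (Set.mem_univ _) := by ring
    rw [h5]
    exact Ideal.mul_mem_right _ _ (hG g)
  -- the non-Eisenstein prime
  obtain ⟨ℓ₀, hℓ₀, hℓ₀S, h1ℓ₀, hneℓ₀⟩ := hH.hne (M₀ N) (Nat.pos_of_ne_zero (M₀_ne_zero N)) Sg.S
  have hne' : tS Sg ℓ₀ ≠ ((1 + ℓ₀ : ℕ) : ResidueField Sg.𝒪) := by
    rw [Nat.add_comm]
    exact hneℓ₀
  exact Fermat.Agent.S43lib.B0.EndBlock.modularRepOfLevel_of_prime_T0 P N q hcond hpN hq h5 hqN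
    hirr W hW Sg.S hS hpS hNS (Sg.F Sg.S Sg.hgoodS).ρ hirrR hurR hdetR hcongR hNM (χ₀ P N)
    (tS Sg) hgood (β₀ : (Sg.F Sg.S Sg.hgoodS).R →+* T0 Sg) 𝔭 h𝔭 hp𝔭 hG hβ₀' hℓ₀ hℓ₀S h1ℓ₀ hne'
    ⟨q, hq⟩ rfl htr

/-- **brick READOUT** (hub SPEC `readout_of`, verbatim). -/
theorem readout_of {q : ℕ} (hH : HubHyp Sg) (hcond : P.IsConductorLevel N)
    (hq : q.Prime) (hq2 : q ≠ 2) (hqN : q ∣ N)
    (hirr : GaloisRepIsIrreducible (K := Qb) ℚ P.freyCurve P.p)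
    (hmod : P.ModularRepOfLevel N)
    (hT : ∀ r : ℕ, r.Prime → r ≠ 2 → r ∣ N →
      P.GaloisRepUnramifiedAt r ∧ r ≡ 1 [MOD P.p] ∧ DecompScalarAt P r)
    (h2 : 2 ∣ N → ¬ P.GaloisRepUnramifiedAt 2)
    (hgood : (H0 Sg).Good P.p)
    (β₀ : (Sg.F Sg.S Sg.hgoodS).R →ₐ[Sg.𝒪] T0 Sg)
    (hβ₀ : ∀ (ℓ : ℕ) (hℓ : ℓ.Prime) (hℓN : ¬ ℓ ∣ lvlTw P.p Sg.S)
        (hℓS : ℓ ∉ (↑Sg.S : Set ℕ)) (hi : ℓ.Prime ∧ ¬ ℓ ∣ M₀ N ∧ ℓ ≠ P.p)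
        (hℓM : ℓ.Coprime (M₀ N)) (g : G₀ P N),
        g * g * χ₀ P N (ZMod.unitOfCoprime ℓ hℓM) = 1 →
        β₀ (heckeLocal.π _ _ _ _ (heckeAlgebra.T hℓ hℓN hℓS)) =
          (H0 Sg).tG Set.univ g * (H0 Sg).tX Set.univ (Sum.inl ⟨ℓ, hi⟩) (Set.mem_univ _))
    (𝔭 : Ideal (T0 Sg)) (h𝔭 : 𝔭.IsPrime)
    (hG : ∀ g : G₀ P N, (H0 Sg).tG Set.univ g - 1 ∈ 𝔭) (hp𝔭 : ((P.p : ℕ) : T0 Sg) ∉ 𝔭)
    (htr : ∀ h : GQ, β₀ ((Sg.F Sg.S Sg.hgoodS).ρ.trace (globGenAt ⟨q, hq⟩ P.p * h)) -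
      β₀ ((Sg.F Sg.S Sg.hgoodS).ρ.trace h) ∈ 𝔭) :
    P.ModularRepOfLevel (N / q) :=
  readout_of_aux Sg hH hcond (Sg.D.H_π Sg.S Sg.hgoodS) hq hq2 hqN hirr hmod hT h2 hgood β₀ hβ₀
    𝔭 h𝔭 hG hp𝔭 htr

end Fermat.Agent.S43lib.Mod4.Hub

end
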