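/-
S43lib / Mod4x / LGCGlueA  (helper3).

Project H (S43), LAYER 4, brick LGC-GLUE, generic part.

* `trace_at_point` : for the abstract Hecke datum `absLvl χ f ev hev` of a level system, a Galois
  representation `ρ` over a local `𝒪`-algebra `R` with an `𝒪`-algebra map `β : R → 𝕋 = H.hecke J'`
  such that `β (tr ρ(Frob_ℓ)) = ⟨g⟩ T_ℓ` whenever `g² χ(ℓ) = 1`, and a point `x : 𝕋 → O₁` with values in a
  complete DVR finite over `𝒪`: the per-point statement `LGCPointStmt` gives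
  `x (β (tr ρ(σ))) = x ⟨g⟩ + x ⟨g⁻¹⟩` for `σ` in an inertia group at `v ∥ M`, `g² = χ(u)`,
  `u ≡ cyc_v(σ)` mod `v`, `u ≡ 1` mod `M / v`.
* `eq_of_forall_point` : two elements of a finite free `𝒪`-algebra generated by elements satisfying
  the relations of the Hecke algebra of level `N'` and by the image of a finite commutative group
  are equal as soon as all points with values in complete DVRs finite over `𝒪` agree on them
  (helper5's `exists_points_of_relations`).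
-/
import Mathlib
import Fermat.Agent.S43lib.Mod4.HeckeInst
import Fermat.Agent.S43lib.Mod4.LGCIface
import Fermat.Agent.S43lib.Mod4.Compat
import Fermat.Agent.S43lib.B1.Point
import Fermat.Agent.S43lib.B1.PointHecke
import Fermat.Agent.S43lib.B2.Bridge.Points
import Fermat.Agent.S43lib.B3.EndGal

set_option autoImplicit false
set_option linter.unusedSectionVars false
set_option linter.unusedVariables false
set_option linter.style.haveILetI false

noncomputable section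

namespace Fermat.Agent.S43lib.Mod4.Hub.LG

open IsLocalRing Polynomial CuspForm Fermat.Agent.S43lib.B1 Fermat.Agent.S43lib.B3
  Fermat.Agent.S43lib.Loc Fermat.Agent.S43lib.Mod4.HO Fermat.Agent.S56lib.TW ExtCitation
  Fermat.Agent.S43lib.B2.Bridge

local notation "GQ" => (AlgebraicClosure ℚ ≃ₐ[ℚ] AlgebraicClosure ℚ)
local notation "Qb" => AlgebraicClosure ℚ

/-! ### small lemmas -/

/-- a ring homomorphism from a local ring to a local ring with finite residue field is local -/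
theorem isLocalHom_of_finite_resField {R A : Type*} [CommRing R] [IsLocalRing R] [CommRing A]
    [IsLocalRing A] [Finite (ResidueField A)] (f : R →+* A) : IsLocalHom f := by
  refine ⟨fun r hu => ?_⟩
  by_contra hr
  have hrm : r ∈ maximalIdeal R := (mem_maximalIdeal _).2 hr
  have hne : residue A (f r) ≠ 0 := by
    rw [Ne, residue_eq_zero_iff]
    exact fun h => (mem_maximalIdeal _).1 h hu
  haveI : Fintype (ResidueField A) := Fintype.ofFinite _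
  have hpow : (residue A (f r)) ^ (Fintype.card (ResidueField A) - 1) = 1 :=
    FiniteField.pow_card_sub_one_eq_one _ hne
  set n := Fintype.card (ResidueField A) - 1 with hn
  have hn0 : n ≠ 0 := by
    have := Fintype.one_lt_card (α := ResidueField A)
    omega
  have h1 : IsUnit (1 - r ^ n) := by
    have hrn : r ^ n ∈ maximalIdeal R := Ideal.pow_mem_of_mem _ hrm n (Nat.pos_of_ne_zero hn0)
    by_contra h
    have h2 : 1 - r ^ n ∈ maximalIdeal R := (mem_maximalIdeal _).2 h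
    have h3 : (1 : R) ∈ maximalIdeal R := by
      have : (1 : R) = (1 - r ^ n) + r ^ n := by ring
      rw [this]
      exact Ideal.add_mem _ h2 hrn
    exact (Ideal.ne_top_iff_one _).1 (maximalIdeal.isMaximal R).ne_top h3
  have h2 : IsUnit (f (1 - r ^ n)) := h1.map f
  have h3 : residue A (f (1 - r ^ n)) = 0 := by
    rw [map_sub, map_sub, map_one, map_one, map_pow, map_pow, hpow, sub_self]
  rw [residue_eq_zero_iff] at h3
  exact (mem_maximalIdeal _).1 h3 h2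

/-- square roots in a `p`-group, `p` odd -/
theorem exists_mul_self_eq_of_isPGroup {G : Type*} [Group G] {p : ℕ} (hp : p.Prime) (hp2 : p ≠ 2)
    (hG : IsPGroup p G) (h : G) : ∃ g : G, g * g = h := by
  obtain ⟨k, hk⟩ := hG h
  have hodd : Odd (p ^ k) := (hp.odd_of_ne_two hp2).pow
  obtain ⟨m, hm⟩ := hodd
  refine ⟨h ^ (m + 1), ?_⟩
  rw [← pow_add]
  have : m + 1 + (m + 1) = p ^ k + 1 := by omega
  rw [this, pow_succ, hk, one_mul]

/-- a finite torsion-free module over a DVR is free -/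
theorem free_of_finite_domain {𝒪 O₁ : Type*} [CommRing 𝒪] [IsDomain 𝒪] [IsPrincipalIdealRing 𝒪]
    [CommRing O₁] [IsDomain O₁] [Algebra 𝒪 O₁] [Module.Finite 𝒪 O₁]
    (hinj : Function.Injective (algebraMap 𝒪 O₁)) : Module.Free 𝒪 O₁ := by
  haveI : FaithfulSMul 𝒪 O₁ := (faithfulSMul_iff_algebraMap_injective 𝒪 O₁).2 hinj
  haveI : Module.IsTorsionFree 𝒪 O₁ := inferInstance
  exact Module.free_of_finite_type_torsion_free'

/-! ### the statement at a point -/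

section Point

variable {𝒪 : Type} [CommRing 𝒪] [IsDomain 𝒪] [IsDiscreteValuationRing 𝒪]
  [IsAdicComplete (maximalIdeal 𝒪) 𝒪] [Finite (ResidueField 𝒪)] [CharZero 𝒪]
  {M : ℕ} [NeZero M] {G : Type} [CommGroup G] [Fintype G] (χ : (ZMod M)ˣ →* G) {I : Type}
  (f : I → LvlIdx M) (ev : MvPolynomial I 𝒪 →+* ResidueField 𝒪)
  (hev : ∀ a, ev (MvPolynomial.C a) = residue 𝒪 a) [(RingHom.ker ev).IsMaximal] (J' : Set I)

/-- **LGC at a point of the Hecke algebra of a level system.** -/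
theorem trace_at_point (hLGC : LGCPointStmt) {p : ℕ} [hpf : Fact p.Prime] (hp5 : 5 ≤ p)
    (hsq : Squarefree M) (hpM : ¬ p ∣ M) (hgood : (absLvl χ f ev hev).Good p)
    {O₁ : Type} [CommRing O₁] [IsDomain O₁] [IsDiscreteValuationRing O₁]
    [IsAdicComplete (maximalIdeal O₁) O₁] [Finite (ResidueField O₁)] [CharZero O₁]
    [Algebra 𝒪 O₁] [Module.Finite 𝒪 O₁] [IsLocalHom (algebraMap 𝒪 O₁)]
    (hinj : Function.Injective (algebraMap 𝒪 O₁))
    (x : (absLvl χ f ev hev).hecke J' →ₐ[𝒪] O₁)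
    (S : Finset ℕ) (hpS : p ∈ S) (hMS : ∀ ℓ : ℕ, ℓ.Prime → ℓ ∣ M → ℓ ∈ S)
    (iT : ℕ → I) (hiJ : ∀ ℓ : ℕ, ℓ.Prime → ¬ ℓ ∣ M → ℓ ∉ S → iT ℓ ∈ J')
    (hiT : ∀ (ℓ : ℕ) (hℓ : ℓ.Prime) (hℓM : ¬ ℓ ∣ M), ℓ ∉ S →
      f (iT ℓ) = Sum.inl (Sum.inl ⟨ℓ, hℓ, hℓM⟩))
    -- the residual representation
    (ρ₀ : ResidualGaloisRep (ZMod p)) (hρ₀ : ρ₀.IsIrreducible) (a₀ : ℕ → ℤ) (S₀ : Finset ℕ)
    (h₀ : ∀ ℓ : ℕ, ℓ.Prime → ℓ ∉ S₀ → ∀ A : ValuationSubring Qb, A.LiesOverPrime ℓ →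
      ∀ φ : GQ, A.IsFrobeniusAt φ ℓ →
        LinearMap.charpoly (ρ₀.ρ φ) =
          X ^ 2 - C ((a₀ ℓ : ℤ) : ZMod p) * X + C ((ℓ : ℕ) : ZMod p))
    (hcong : ∀ ℓ : ℕ, ℓ.Prime → ¬ ℓ ∣ M → ℓ ∉ S → ℓ ∉ S₀ →
      ev (MvPolynomial.X (iT ℓ)) = ((a₀ ℓ : ℤ) : ResidueField 𝒪))
    (hnE : ∀ m : ℕ, 0 < m → ∀ S₁ : Finset ℕ,
      ∃ (ℓ₀ : ℕ) (A : ValuationSubring Qb) (φ : GQ), ℓ₀.Prime ∧ ℓ₀ ∉ S₁ ∧
        m ∣ ℓ₀ - 1 ∧ A.LiesOverPrime ℓ₀ ∧ A.IsFrobeniusAt φ ℓ₀ ∧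
        (LinearMap.charpoly (ρ₀.ρ φ)).eval 1 ≠ 0)
    -- the Galois representation
    {R : Type} [CommRing R] [IsLocalRing R] [Algebra 𝒪 R] (ρ : GaloisRepAdic R)
    (habs : ρ.residual.IsAbsolutelyIrreducible)
    (β : R →ₐ[𝒪] (absLvl χ f ev hev).hecke J')
    (hρ : ∀ (ℓ : ℕ) (hℓ : ℓ.Prime) (hℓM : ℓ.Coprime M) (hℓS : ℓ ∉ S) (hJ : iT ℓ ∈ J') (g : G),
      g * g * χ (ZMod.unitOfCoprime ℓ hℓM) = 1 →
      ∀ A : ValuationSubring Qb, A.LiesOverPrime ℓ → ∀ φ : GQ, A.IsFrobeniusAt φ ℓ →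
        ∃ τ : R, LinearMap.charpoly (ρ.ρ φ) = X ^ 2 - C τ * X + C ((ℓ : ℕ) : R) ∧
          β τ = (absLvl χ f ev hev).tG J' g * (absLvl χ f ev hev).tX J' (iT ℓ) hJ)
    -- the conclusion
    (v : ℕ) [Fact v.Prime] (hvM : v ∣ M) (hv2 : v ≠ 2) (hvp : v ≠ p)
    (A : ValuationSubring Qb) (hA : A.LiesOverPrime v) (σ : GQ) (hσ : σ ∈ A.inertiaSubgroupIn ℚ)
    (u : (ZMod M)ˣ) (hu1 : ZMod.unitsMap hvM u = cycloChar v σ)
    (hu2 : ZMod.unitsMap (Nat.div_dvd_of_dvd hvM) u = 1) (g : G) (hg : g * g = χ u) :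
    x (β (ρ.trace σ)) =
      x ((absLvl χ f ev hev).tG J' g) + x ((absLvl χ f ev hev).tG J' g⁻¹) := by
  classical
  have hp : p.Prime := hpf.out
  have hp2 : p ≠ 2 := by omega
  haveI : IsLocalRing ((absLvl χ f ev hev).hecke J') := (absLvl χ f ev hev).isLocalRing_hecke J' hgood
  -- the point is local
  have hxloc : IsLocalHom (x : (absLvl χ f ev hev).hecke J' →+* O₁) := isLocalHom_of_finite_resField _
  have hyloc : IsLocalHom ((x : (absLvl χ f ev hev).hecke J' →+* O₁).comp (β : R →+* (absLvl χ f ev hev).hecke J')) :=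
    isLocalHom_of_finite_resField _
  have hpO₁ : (p : O₁) ∈ maximalIdeal O₁ := by
    have h1 : (p : O₁) = algebraMap 𝒪 O₁ (p : 𝒪) := (map_natCast _ p).symm
    rw [h1]
    exact map_nonunit (algebraMap 𝒪 O₁) _ hgood.hp𝒪
  -- the character and the eigenvalues
  obtain ⟨ψ, hψv⟩ : ∃ ψ : G →* O₁ˣ, ∀ g, ((ψ g : O₁ˣ) : O₁) = x ((absLvl χ f ev hev).tG J' g) :=
    ⟨(Units.map (x : (absLvl χ f ev hev).hecke J' →* O₁)).comp ((absLvl χ f ev hev).tG J').toHomUnits, fun g => rfl⟩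
  obtain ⟨aI, haI⟩ : ∃ aI : I → O₁, ∀ j (hj : j ∈ J'), aI j = x ((absLvl χ f ev hev).tX J' j hj) :=
    ⟨fun j => if hj : j ∈ J' then x ((absLvl χ f ev hev).tX J' j hj) else 0, fun j hj => dif_pos hj⟩
  -- the eigenclass
  haveI : Module.Free 𝒪 O₁ := free_of_finite_domain hinj
  have hcard : (Fintype.card G : O₁) ≠ 0 := Nat.cast_ne_zero.2 Fintype.card_ne_zero
  obtain ⟨c, hc0, hc⟩ := exists_eigenclass_of_point (K' := FractionRing O₁) χ f (RingHom.ker ev)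
    hcard J' aI ψ (by
      intro P hP h0
      have := (absLvl χ f ev hev).point_hx J' x aI haI P hP h0
      simp_rw [hψv]
      exact this)
  haveI : IsAddTorsionFree (ChMod ((Units.map (algebraMap O₁ (FractionRing O₁) :
      O₁ →* FractionRing O₁)).comp ψ)) := inferInstanceAs (IsAddTorsionFree (FractionRing O₁))
  -- the statement
  have key := hLGC (p := p) hp5 (𝒪' := O₁) hpO₁ (K' := FractionRing O₁) (M := M) hsq hpM
    (G := G) hgood.hG χ ψ (ChMod ((Units.map (algebraMap O₁ (FractionRing O₁) :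
      O₁ →* FractionRing O₁)).comp ψ)) (fun g w => rfl) S hpS hMS c hc0 (fun ℓ => aI (iT ℓ)) ?_
    ρ₀ hρ₀ a₀ S₀ h₀ ?_ hnE (ρ.baseChangeAlong _ hyloc) ?_ ?_
    v hvM hv2 hvp A hA σ hσ u hu1 hu2 g hg
  · rw [trace_baseChangeAlong _ hyloc ρ σ, RingHom.comp_apply] at key
    have h1 : (((ψ g)⁻¹ : O₁ˣ) : O₁) = x ((absLvl χ f ev hev).tG J' g⁻¹) := by
      rw [← map_inv, hψv]
    rw [h1, hψv] at key
    exact key
  · -- eigenvalues
    intro ℓ hℓf hℓM hℓS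
    have hj : iT ℓ ∈ J' := hiJ ℓ hℓf.out hℓM hℓS
    exact (heckeH_lvlD_of_eq_inl χ _ (f (iT ℓ)) hℓM (hiT ℓ hℓf.out hℓM hℓS) _ c).symm.trans
      (hc (iT ℓ) hj)
  · -- the congruence
    intro ℓ hℓ hℓS hℓS₀
    have hℓM : ¬ ℓ ∣ M := fun h => hℓS (hMS ℓ hℓ h)
    have hj : iT ℓ ∈ J' := hiJ ℓ hℓ hℓM hℓS
    have h1 : (absLvl χ f ev hev).tX J' (iT ℓ) hj - algebraMap 𝒪 ((absLvl χ f ev hev).hecke J') ((a₀ ℓ : ℤ) : 𝒪) ∈
        maximalIdeal ((absLvl χ f ev hev).hecke J') := by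
      refine (absLvl χ f ev hev).tX_sub_mem J' hgood hj ?_
      rw [map_intCast]
      exact (hcong ℓ hℓ hℓM hℓS hℓS₀).symm
    have h2 : x ((absLvl χ f ev hev).tX J' (iT ℓ) hj - algebraMap 𝒪 ((absLvl χ f ev hev).hecke J') ((a₀ ℓ : ℤ) : 𝒪)) ∈
        maximalIdeal O₁ := by
      rw [mem_maximalIdeal, mem_nonunits_iff] at h1 ⊢
      exact fun h => h1 (hxloc.map_nonunit _ h)
    rw [map_sub, AlgHom.commutes, map_intCast, ← residue_eq_zero_iff, map_sub, map_intCast,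
      sub_eq_zero] at h2
    show residue O₁ (aI (iT ℓ)) = _
    rw [haI _ hj]
    exact h2
  · -- Frobenius
    intro ℓ hℓ hℓM hℓS g' hg' A' hA' φ hφ
    have hℓM' : ¬ ℓ ∣ M := fun h => hℓS (hMS ℓ hℓ h)
    have hj : iT ℓ ∈ J' := hiJ ℓ hℓ hℓM' hℓS
    obtain ⟨τ, hτ, hβτ⟩ := hρ ℓ hℓ hℓM hℓS hj g' hg' A' hA' φ hφ
    rw [charpoly_baseChangeAlong _ hyloc ρ φ, hτ]
    simp only [Polynomial.map_add, Polynomial.map_sub, Polynomial.map_mul, Polynomial.map_pow,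
      Polynomial.map_X, Polynomial.map_C, map_natCast, Polynomial.map_natCast]
    have h1 : ((x : (absLvl χ f ev hev).hecke J' →+* O₁).comp (β : R →+* (absLvl χ f ev hev).hecke J')) τ =
        ((ψ g' : O₁ˣ) : O₁) * aI (iT ℓ) := by
      rw [RingHom.comp_apply]
      show x (β τ) = _
      rw [hβτ, map_mul, hψv, haI _ hj]
    rw [h1]
  · -- span
    exact span_range_rho_baseChangeAlong _ hyloc ρ habs

end Point

/-! ### joint injectivity of the points -/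

/-- the lift of `ℓ ↦ F (T_ℓ)` to the free algebra is `F ∘ evalForms` -/
theorem lift_comp_T {N' : ℕ} [NeZero N'] {S : Set ℕ} {E : Type*} [CommRing E]
    (F : ↥(heckeAlgebra N' 2 S) →+* E) (P : FreeAlgebra ℤ (GoodPrime N' S)) :
    FreeAlgebra.lift ℤ (fun ℓ : GoodPrime N' S => F (heckeAlgebra.T ℓ.2.1 ℓ.2.2.1 ℓ.2.2.2)) P =
      F (evalForms P) := by
  have h : FreeAlgebra.lift ℤ
      (fun ℓ : GoodPrime N' S => F (heckeAlgebra.T ℓ.2.1 ℓ.2.2.1 ℓ.2.2.2)) =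
      (F.toIntAlgHom).comp (evalForms (M := N') (S := S)) := by
    apply FreeAlgebra.hom_ext
    funext ℓ
    simp
  rw [h]
  rfl

/-- **two elements of a Hecke algebra are equal if all points agree on them** -/
theorem eq_of_forall_point {N' : ℕ} [NeZero N'] {S : Set ℕ}
    (hS : ∀ q : ℕ, q.Prime → q ∣ N' → q ∈ S) {G : Type} [CommGroup G] [Fintype G]
    {𝒪 : Type} [CommRing 𝒪] [IsDomain 𝒪] [IsDiscreteValuationRing 𝒪] [CharZero 𝒪]
    [IsAdicComplete (maximalIdeal 𝒪) 𝒪] [Finite (ResidueField 𝒪)]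
    {E : Type} [CommRing E] [Algebra 𝒪 E] [Module.Finite 𝒪 E] [Module.Free 𝒪 E]
    (F : ↥(heckeAlgebra N' 2 S) →+* E) (δ : G →* E)
    (hgen : Algebra.adjoin 𝒪 (Set.range (fun ℓ : GoodPrime N' S =>
      F (heckeAlgebra.T ℓ.2.1 ℓ.2.2.1 ℓ.2.2.2)) ∪ Set.range δ) = ⊤) (a b : E)
    (h : ∀ (O₁ : Type) [CommRing O₁] [IsDomain O₁] [IsDiscreteValuationRing O₁]
      [IsAdicComplete (maximalIdeal O₁) O₁] [Finite (ResidueField O₁)] [CharZero O₁]
      [Algebra 𝒪 O₁] [Module.Finite 𝒪 O₁] [IsLocalHom (algebraMap 𝒪 O₁)],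
      Function.Injective (algebraMap 𝒪 O₁) → ∀ x : E →ₐ[𝒪] O₁, x a = x b) : a = b := by
  obtain ⟨κ, _, O₁, _, _, _, _, _, _, _, _, _, hinj, ψ, hψ⟩ :=
    exists_points_of_relations N' S hS (𝒪 := 𝒪) (E := E)
      (fun ℓ : GoodPrime N' S => F (heckeAlgebra.T ℓ.2.1 ℓ.2.2.1 ℓ.2.2.2)) δ
      (fun P hP => by rw [lift_comp_T, hP, map_zero]) hgen
  rw [← sub_eq_zero]
  apply hψ
  intro k
  rw [map_sub, sub_eq_zero]
  exact h O₁ hinj (ψ k)

end Fermat.Agent.S43lib.Mod4.Hub.LG
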