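/-
S43lib / Mod4x / TR (helper2) — Project H, hub brick (7) TR.

The two trace identities of `SideLevel` (`tr_T`, `tr_Q`) for the concrete hub objects, from the
per-point local–global compatibility in the Hecke algebra (`tr_eq_of_LGC`, brick (4)), which enters
here as the hypothesis `GlueStmt`:  for `σ = globGenAt v p` (in the inertia group of the standard
place over `v`), the unit `u ≡ cyc_v(σ) (v)`, `u ≡ 1 (M/v)` has `χ(u) = g²` with `g` the standard
generator of the `v`-component of the diamond group (by the choice of `κ_v`, `kap_spec`).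
-/
import Mathlib
import Fermat.Agent.S43lib.Mod4.HubDefs
import Fermat.Agent.S56lib.TW.Cyclo

set_option autoImplicit false
set_option linter.unusedSectionVars false
set_option linter.style.haveILetI false

noncomputable section

namespace Fermat.Agent.S43lib.Mod4.Hub

open IsLocalRing Polynomial CuspForm Fermat.Agent.S43lib.B3 Fermat.Agent.S43lib.Loc
  Fermat.Agent.S56lib.Main Fermat.Agent.S43lib.Mod4.HO Fermat.Agent.S56lib.TW ExtCitation

local notation "GQ" => (AlgebraicClosure ℚ ≃ₐ[ℚ] AlgebraicClosure ℚ)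
local notation "Qb" => AlgebraicClosure ℚ

namespace TRaux

/-! ### arithmetic -/

theorem squarefree_tp' (p : ℕ) (S' : Finset ℕ) : Squarefree (tp p S') := by
  unfold tp
  refine Finset.squarefree_prod_of_pairwise_isCoprime ?_ ?_
  · intro a ha b hb hab
    have ha' : a.Prime := (Finset.mem_filter.1 ha).2
    have hb' : b.Prime := (Finset.mem_filter.1 hb).2
    exact Nat.coprime_iff_isRelPrime.1 ((Nat.coprime_primes ha' hb').2 hab)
  · intro a ha
    exact (Finset.mem_filter.1 ha).2.prime.squarefree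

theorem odd_tp' (p : ℕ) (S' : Finset ℕ) : Odd (tp p S') := by
  rw [← Nat.not_even_iff_odd, even_iff_two_dvd]
  exact not_two_dvd_tp p S'

theorem squarefree_two_mul_tp (p : ℕ) (S' : Finset ℕ) : Squarefree (2 * tp p S') := by
  rw [Nat.squarefree_mul_iff]
  exact ⟨(odd_tp' p S').coprime_two_left, Nat.prime_two.prime.squarefree, squarefree_tp' p S'⟩

/-- for a prime `v` dividing a squarefree `M`, `v` is prime to `M / v` -/
theorem coprime_div_of_squarefree {M v : ℕ} (hM : Squarefree M) (hvM : v ∣ M) :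
    v.Coprime (M / v) := by
  have h : Squarefree (v * (M / v)) := by rwa [Nat.mul_div_cancel' hvM]
  exact (Nat.squarefree_mul_iff.1 h).1

/-- the Chinese remainder theorem for units, general modulus -/
theorem exists_unit_crt' {M m n : ℕ} (hM : M = m * n) (h : m.Coprime n) (hm : m ∣ M) (hn : n ∣ M)
    (a : (ZMod m)ˣ) (b : (ZMod n)ˣ) :
    ∃ u : (ZMod M)ˣ, ZMod.unitsMap hm u = a ∧ ZMod.unitsMap hn u = b := by
  subst hM
  exact ⟨crtU h (a, b), unitsMap_crtU_fst h a b, unitsMap_crtU_snd h a b⟩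

theorem unitsMap_unitsMap' {d m n : ℕ} (hm : n ∣ m) (hd : m ∣ d) (u : (ZMod d)ˣ) :
    ZMod.unitsMap hm (ZMod.unitsMap hd u) = ZMod.unitsMap (dvd_trans hm hd) u := by
  rw [← ZMod.unitsMap_comp hm hd]
  rfl

/-- a unit which is `1` modulo `M / v` is `1` modulo every prime `w ≠ v` of `M` -/
theorem unitsMap_eq_one_of_ne {M v w : ℕ} (hv : v.Prime) (hw : w.Prime) (hvM : v ∣ M) (hwM : w ∣ M)
    (hne : w ≠ v) (u : (ZMod M)ˣ) (hu2 : ZMod.unitsMap (Nat.div_dvd_of_dvd hvM) u = 1) :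
    ZMod.unitsMap hwM u = 1 := by
  have hw' : w ∣ M / v := by
    have h1 : w ∣ v * (M / v) := by rw [Nat.mul_div_cancel' hvM]; exact hwM
    exact Nat.Coprime.dvd_of_dvd_mul_left ((Nat.coprime_primes hw hv).2 hne) h1
  rw [← unitsMap_unitsMap' hw' (Nat.div_dvd_of_dvd hvM), hu2, map_one]

/-- the square of the standard generator -/
theorem deltaGen_mul_self (p : ℕ) [Fact p.Prime] {m : ℕ} (a : Fin m → ℕ) (j : Fin m) :
    deltaGen p a j * deltaGen p a j = Pi.mulSingle j (Multiplicative.ofAdd 2) := by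
  unfold deltaGen
  rw [← Pi.mulSingle_mul, ← ofAdd_add, one_add_one_eq_two]

variable {P : FreyPackage} {N : ℕ} (Sg : SideGal P N)

/-! ### the characters at the components -/

/-- the `w`-component of `χ₀` -/
theorem χ₀_eT (u₀ : (ZMod (M₀ N))ˣ) (w : TT N) :
    χ₀ P N u₀ (eT N w) =
      kap P.p 1 (((w : Nat.Primes) : ℕ)) (ZMod.unitsMap (TT_dvd_M₀ w) u₀) := by
  rw [χ₀_apply]
  have key : ∀ w₂ : TT N, w₂ = w →
      kap P.p 1 (((w₂ : Nat.Primes) : ℕ)) (ZMod.unitsMap (TT_dvd_M₀ w₂) u₀) =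
        kap P.p 1 (((w : Nat.Primes) : ℕ)) (ZMod.unitsMap (TT_dvd_M₀ w) u₀) := by
    rintro _ rfl
    rfl
  exact key _ ((eT N).symm_apply_apply w)

section TR

variable {r : ℕ} (n : ℕ) (qv : Fin r → ℕ)
  [NeZero (M₀ N * (QL qv).prod)] (hcop : (M₀ N).Coprime (QL qv).prod)
  (hS' : Sg.good (SQ P N qv))
  (β : (Sg.F (SQ P N qv) hS').R →ₐ[Sg.𝒪] TQ Sg n qv hcop)

/-- **the conclusion of `tr_eq_of_LGC`** (brick (4)), universally quantified -/
def GlueStmt : Prop :=
  ∀ (v : ℕ) [Fact v.Prime] (hvM : v ∣ M₀ N * (QL qv).prod), v ≠ 2 → v ≠ P.p →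
    ∀ (A : ValuationSubring Qb), A.LiesOverPrime v → ∀ σ : GQ, σ ∈ A.inertiaSubgroupIn ℚ →
    ∀ u : (ZMod (M₀ N * (QL qv).prod))ˣ, ZMod.unitsMap hvM u = cycloChar v σ →
      ZMod.unitsMap (Nat.div_dvd_of_dvd hvM) u = 1 →
    ∀ g : G₀ P N × DelQ P r n, g * g = chiQ (χ₀ P N) (kapQ P n qv) u →
      β ((Sg.F (SQ P N qv) hS').ρ.trace σ) =
        (HQ Sg n qv hcop).tG (JQ P.p (M₀ N) (QL qv)) g +
          (HQ Sg n qv hcop).tG (JQ P.p (M₀ N) (QL qv)) g⁻¹

variable {n qv}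

/-- the level is squarefree -/
theorem squarefree_level (hH : HubHyp Sg) (hinj : Function.Injective qv)
    (hqv : ∀ i, (qv i).Prime ∧ qv i ∉ Sg.S ∧ P.p ^ (n + 1) ∣ qv i - 1) :
    Squarefree (M₀ N * (QL qv).prod) := by
  have hqv' : ∀ i, (qv i).Prime ∧ qv i ∉ ({P.p, 2} ∪ oddPrimes N : Finset ℕ) :=
    fun i => ⟨(hqv i).1, (hqv i).2.1⟩
  rw [M₀_mul_prod (P := P) (N := N) hH.hpN hinj hqv']
  exact squarefree_two_mul_tp _ _

/-- the odd primes of `N` are different from the Taylor–Wiles primes -/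
theorem TT_ne_qv (hqv : ∀ i, (qv i).Prime ∧ qv i ∉ Sg.S ∧ P.p ^ (n + 1) ∣ qv i - 1) (w : TT N)
    (i : Fin r) : ((w : Nat.Primes) : ℕ) ≠ qv i := by
  intro h
  exact (hqv i).2.1 (Finset.mem_union_right _ (h ▸ TT_mem w))

end TR

end TRaux

open TRaux

section TR

variable {P : FreyPackage} {N : ℕ} (Sg : SideGal P N) {r : ℕ} {n : ℕ} {qv : Fin r → ℕ}
  [NeZero (M₀ N * (QL qv).prod)] {hcop : (M₀ N).Coprime (QL qv).prod}
  {hS' : Sg.good (SQ P N qv)}
  {β : (Sg.F (SQ P N qv) hS').R →ₐ[Sg.𝒪] TQ Sg n qv hcop}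

/-- **`tr_T`, from the glue statement** -/
theorem tr_T_of_glue (hGlue : GlueStmt Sg n qv hcop hS' β) (hH : HubHyp Sg)
    (hinj : Function.Injective qv)
    (hqv : ∀ i, (qv i).Prime ∧ qv i ∉ Sg.S ∧ P.p ^ (n + 1) ∣ qv i - 1) (v : TT N) :
    β ((Sg.F (SQ P N qv) hS').ρ.trace (globGenAt (v : Nat.Primes) P.p)) =
      (HQ Sg n qv hcop).tG (JQ P.p (M₀ N) (QL qv)) (deltaGen P.p (aT N) (eT N v), 1) +
        (HQ Sg n qv hcop).tG (JQ P.p (M₀ N) (QL qv)) ((deltaGen P.p (aT N) (eT N v))⁻¹, 1) := by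
  classical
  set v' : ℕ := ((v : Nat.Primes) : ℕ) with hv'
  have hvp : v'.Prime := TT_prime v
  haveI : Fact v'.Prime := ⟨hvp⟩
  obtain ⟨-, hvN, -, hv2⟩ := mem_oddPrimes.1 (TT_mem v)
  have hvne : v' ≠ P.p := fun h => hH.hpN (h ▸ hvN)
  have hvM : v' ∣ M₀ N * (QL qv).prod := Dvd.dvd.mul_right (TT_dvd_M₀ v) _
  have hsqM := squarefree_level Sg hH hinj hqv
  have hcopv : v'.Coprime (M₀ N * (QL qv).prod / v') := coprime_div_of_squarefree hsqM hvM
  obtain ⟨u, hu1, hu2⟩ := exists_unit_crt' (Nat.mul_div_cancel' hvM).symm hcopv hvM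
    (Nat.div_dvd_of_dvd hvM) (cycloChar v' (globGenAt (v : Nat.Primes) P.p)) 1
  have hp1 : P.p ^ 1 ∣ v' - 1 := by
    rw [pow_one]
    exact (Nat.modEq_iff_dvd' hvp.one_le).1 (hH.hT1 v' (TT_mem v)).symm
  have hg : ((deltaGen P.p (aT N) (eT N v), 1) : G₀ P N × DelQ P r n) *
      (deltaGen P.p (aT N) (eT N v), 1) = chiQ (χ₀ P N) (kapQ P n qv) u := by
    rw [chiQ_apply, Prod.mk_mul_mk, one_mul, deltaGen_mul_self, Prod.mk.injEq]
    refine ⟨?_, ?_⟩
    · -- the `T`-components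
      funext i
      obtain ⟨w, rfl⟩ := (eT N).surjective i
      show _ = χ₀ P N _ (eT N w)
      rw [χ₀_eT, unitsMap_unitsMap']
      by_cases hwv : w = v
      · subst hwv
        rw [Pi.mulSingle_eq_same]
        have h1 : ZMod.unitsMap ((TT_dvd_M₀ w).trans (dvd_mul_right (M₀ N) (QL qv).prod)) u =
            cycGen (w : Nat.Primes) P.p := hu1
        rw [h1]
        exact ((kap_spec hvp P.pp Sg.hp2 (Ne.symm hvne) hp1).2).symm
      · have hne : ((w : Nat.Primes) : ℕ) ≠ v' := fun h => hwv (Subtype.ext (Subtype.ext h))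
        rw [Pi.mulSingle_eq_of_ne (fun h => hwv ((eT N).injective h)),
          unitsMap_eq_one_of_ne hvp (TT_prime w) hvM _ hne u hu2, map_one]
    · -- the `Q`-components
      funext i
      show (1 : DelQ P r n) i = kapQ P n qv _ i
      rw [kapQ_apply, unitsMap_unitsMap',
        unitsMap_eq_one_of_ne hvp (hqv i).1 hvM _ (TT_ne_qv Sg hqv v i).symm u hu2, map_one]
      rfl
  have key := hGlue v' hvM hv2 hvne _
    (Fermat.Agent.S56lib.TWSel.primeLocalPlace_liesOverPrime (v : Nat.Primes)) _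
    (globGenAt_mem_inertia (v : Nat.Primes) P.p) u hu1 hu2 _ hg
  rw [key, Prod.inv_mk, inv_one]

/-- **`tr_Q`, from the glue statement** -/
theorem tr_Q_of_glue (hGlue : GlueStmt Sg n qv hcop hS' β) (hH : HubHyp Sg)
    (hinj : Function.Injective qv)
    (hqv : ∀ i, (qv i).Prime ∧ qv i ∉ Sg.S ∧ P.p ^ (n + 1) ∣ qv i - 1) (i : Fin r) :
    β ((Sg.F (SQ P N qv) hS').ρ.trace (globGenAt ⟨qv i, (hqv i).1⟩ P.p)) =
      (HQ Sg n qv hcop).tG (JQ P.p (M₀ N) (QL qv)) (1, deltaGen P.p (aQ r n) i) +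
        (HQ Sg n qv hcop).tG (JQ P.p (M₀ N) (QL qv)) (1, (deltaGen P.p (aQ r n) i)⁻¹) := by
  classical
  set v' : ℕ := qv i with hv'
  have hvp : v'.Prime := (hqv i).1
  haveI : Fact v'.Prime := ⟨hvp⟩
  have hv2 : v' ≠ 2 := fun h => (hqv i).2.1 (Finset.mem_union_left _ (by
    have h' : qv i = 2 := h
    rw [h']; simp))
  have hvne : v' ≠ P.p := fun h => (hqv i).2.1 (Finset.mem_union_left _ (by
    have h' : qv i = P.p := h
    rw [h']; simp))
  have hvQ : v' ∣ (QL qv).prod := dvd_QL_prod qv i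
  have hvM : v' ∣ M₀ N * (QL qv).prod := Dvd.dvd.mul_left hvQ _
  have hsqM := squarefree_level Sg hH hinj hqv
  have hcopv : v'.Coprime (M₀ N * (QL qv).prod / v') := coprime_div_of_squarefree hsqM hvM
  obtain ⟨u, hu1, hu2⟩ := exists_unit_crt' (Nat.mul_div_cancel' hvM).symm hcopv hvM
    (Nat.div_dvd_of_dvd hvM) (cycloChar v' (globGenAt ⟨qv i, (hqv i).1⟩ P.p)) 1
  have hg : ((1, deltaGen P.p (aQ r n) i) : G₀ P N × DelQ P r n) *
      (1, deltaGen P.p (aQ r n) i) = chiQ (χ₀ P N) (kapQ P n qv) u := by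
    rw [chiQ_apply, Prod.mk_mul_mk, one_mul, deltaGen_mul_self, Prod.mk.injEq]
    refine ⟨?_, ?_⟩
    · -- the `T`-components
      funext j
      obtain ⟨w, rfl⟩ := (eT N).surjective j
      show (1 : G₀ P N) (eT N w) = χ₀ P N _ (eT N w)
      rw [χ₀_eT, unitsMap_unitsMap',
        unitsMap_eq_one_of_ne hvp (TT_prime w) hvM _ (TT_ne_qv Sg hqv w i) u hu2, map_one]
      rfl
    · -- the `Q`-components
      funext j
      show _ = kapQ P n qv _ j
      rw [kapQ_apply, unitsMap_unitsMap']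
      by_cases hji : j = i
      · subst hji
        rw [Pi.mulSingle_eq_same]
        have h1 : ZMod.unitsMap ((dvd_QL_prod qv j).trans (dvd_mul_left (QL qv).prod (M₀ N))) u =
            cycGen ⟨qv j, (hqv j).1⟩ P.p := hu1
        rw [h1]
        exact ((kap_spec hvp P.pp Sg.hp2 (Ne.symm hvne) (hqv j).2.2).2).symm
      · rw [Pi.mulSingle_eq_of_ne hji,
          unitsMap_eq_one_of_ne hvp (hqv j).1 hvM _ (fun h => hji (hinj h)) u hu2, map_one]
  have key := hGlue v' hvM hv2 hvne _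
    (Fermat.Agent.S56lib.TWSel.primeLocalPlace_liesOverPrime ⟨qv i, (hqv i).1⟩) _
    (globGenAt_mem_inertia ⟨qv i, (hqv i).1⟩ P.p) u hu1 hu2 _ hg
  rw [key, Prod.inv_mk, inv_one]

end TR

end Fermat.Agent.S43lib.Mod4.Hub
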