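/-
S43lib / Mod4x / LGCGlueTR  (helper3).

Project H (S43), LAYER 4, brick TR in the SPEC shape: helper2's `tr_T_of_glue` / `tr_Q_of_glue`
(`Mod4x/TR.lean`) fed with `tr_eq_of_LGC` (`Mod4x/LGCGlue.lean`).
-/
import Mathlib
import Fermat.Agent.S43lib.Mod4x.LGCGlue
import Fermat.Agent.S43lib.Mod4x.TR

set_option autoImplicit false
set_option linter.unusedSectionVars false
set_option linter.unusedVariables false

noncomputable section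

namespace Fermat.Agent.S43lib.Mod4.Hub

open IsLocalRing Polynomial CuspForm Fermat.Agent.S43lib.B3 Fermat.Agent.S43lib.Loc
  Fermat.Agent.S56lib.Main Fermat.Agent.S43lib.Mod4.HO Fermat.Agent.S56lib.TW ExtCitation
  Fermat.Agent.S43lib.BigImg WeierstrassCurve WeierstrassCurve.Affine WeierstrassCurve.Affine.Point FreyPackage

local notation "GQ" => (AlgebraicClosure ℚ ≃ₐ[ℚ] AlgebraicClosure ℚ)
local notation "Qb" => AlgebraicClosure ℚ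

variable {P : FreyPackage} {N : ℕ} (Sg : SideGal P N)

/-! ## brick TR -/
section TR

variable (hLGC : LGCPointStmt) (hH : HubHyp Sg)
    (hirr : GaloisRepIsIrreducible (K := Qb) ℚ P.freyCurve P.p)
    {r : ℕ} (n : ℕ) (qv : Fin r → ℕ) (hinj : Function.Injective qv)
    (hqv : ∀ i, (qv i).Prime ∧ qv i ∉ Sg.S ∧ P.p ^ (n + 1) ∣ qv i - 1)
    [NeZero (M₀ N * (QL qv).prod)] (hcop : (M₀ N).Coprime (QL qv).prod)
    (hgood : (HQ Sg n qv hcop).Good P.p) (hS' : Sg.good (SQ P N qv))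
    (hfree : Module.Free Sg.𝒪 (MQ Sg n qv hcop))
    (β : (Sg.F (SQ P N qv) hS').R →ₐ[Sg.𝒪] TQ Sg n qv hcop)
    (hβ : ∀ (ℓ : ℕ) (hℓ : ℓ.Prime) (hℓN : ¬ ℓ ∣ lvlTw P.p (SQ P N qv))
        (hℓS : ℓ ∉ (↑(SQ P N qv) : Set ℕ)) (hi : ℓ.Prime ∧ ¬ ℓ ∣ M₀ N ∧ ℓ ≠ P.p)
        (hJ : (Sum.inl ⟨ℓ, hi⟩ : Idx P.p (M₀ N)) ∈ JQ P.p (M₀ N) (QL qv))
        (hℓM : ℓ.Coprime (M₀ N * (QL qv).prod)) (g : G₀ P N × DelQ P r n),
        g * g * chiQ (χ₀ P N) (kapQ P n qv) (ZMod.unitOfCoprime ℓ hℓM) = 1 →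
        β (heckeLocal.π _ _ _ _ (heckeAlgebra.T hℓ hℓN hℓS)) =
          (HQ Sg n qv hcop).tG (JQ P.p (M₀ N) (QL qv)) g *
            (HQ Sg n qv hcop).tX (JQ P.p (M₀ N) (QL qv)) (Sum.inl ⟨ℓ, hi⟩) hJ)

include hLGC hH hirr hinj hqv hgood hfree hβ

theorem tr_T_of (v : TT N) :
    β ((Sg.F (SQ P N qv) hS').ρ.trace (globGenAt (v : Nat.Primes) P.p)) =
      (HQ Sg n qv hcop).tG (JQ P.p (M₀ N) (QL qv)) (deltaGen P.p (aT N) (eT N v), 1) +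
        (HQ Sg n qv hcop).tG (JQ P.p (M₀ N) (QL qv)) ((deltaGen P.p (aT N) (eT N v))⁻¹, 1) :=
  tr_T_of_glue Sg (fun v _ hvM hv2 hvp A hA σ hσ u hu1 hu2 g hg =>
      tr_eq_of_LGC Sg hLGC hH hirr n qv hinj hqv hcop hgood hS' hfree β hβ v hvM hv2 hvp A hA σ hσ
        u hu1 hu2 g hg) hH hinj hqv v

theorem tr_Q_of (i : Fin r) :
    β ((Sg.F (SQ P N qv) hS').ρ.trace (globGenAt ⟨qv i, (hqv i).1⟩ P.p)) =
      (HQ Sg n qv hcop).tG (JQ P.p (M₀ N) (QL qv)) (1, deltaGen P.p (aQ r n) i) +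
        (HQ Sg n qv hcop).tG (JQ P.p (M₀ N) (QL qv)) (1, (deltaGen P.p (aQ r n) i)⁻¹) :=
  tr_Q_of_glue Sg (fun v _ hvM hv2 hvp A hA σ hσ u hu1 hu2 g hg =>
      tr_eq_of_LGC Sg hLGC hH hirr n qv hinj hqv hcop hgood hS' hfree β hβ v hvM hv2 hvp A hA σ hσ
        u hu1 hu2 g hg) hH hinj hqv i

end TR

end Fermat.Agent.S43lib.Mod4.Hub
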